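import Fermat.Agent.EllipticSecondKind.QuasiPeriods

/-!
# Schneider's theorem on integrals of the second kind

For algebraic invariants the functions `℘` and `a z + b ζ z` have algebraic values, together with
their derivatives, at all odd multiples of a half period if `a ω + b η` is algebraic.
-/

set_option autoImplicit false
set_option linter.style.haveILetI false

noncomputable section

open Complex Module
open scoped PeriodPair IntermediateField

namespace FA.EllipticSecondKind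

open FA.Chudnovsky (Frame zt alpha shiftC th thSq thSq_off th_ne_zero differentiable_th
  differentiable_deriv differentiable_thSq exists_th_ne_zero exists_bound exists_frame)
open FA.SchneiderLang (eq_zero_of_grid infinite_image_weierstrassP values_add_mul
  derivWeierstrassP_half isAlgebraic_weierstrassP_half exists_primitive_period norm_mul_le_exp
  card_le_of_values_mem)

variable {L : PeriodPair} (Φ : Frame L)

/-- The combination `a z + b ζ z + c`. -/
def comb (a b c z : ℂ) : ℂ := a * z + b * zeta₀ Φ z + c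

/-- Its increase along a period. -/
def combPeriod (a b x : ℂ) : ℂ := a * x + b * eta Φ x

theorem comb_add (a b c : ℂ) {z x : ℂ} (hz : z ∉ L.lattice) (hx : x ∈ L.lattice) :
    comb Φ a b c (z + x) = comb Φ a b c z + combPeriod Φ a b x := by
  rw [comb, comb, combPeriod, zeta₀_add Φ hz hx]; ring

theorem combPeriod_nsmul (a b : ℂ) (k : ℕ) (x : ℂ) :
    combPeriod Φ a b (k * x) = k * combPeriod Φ a b x := by
  rw [combPeriod, combPeriod, eta_nsmul]; ring

/-- The entire multiple of the combination. -/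
def combNum (a b c z : ℂ) : ℂ :=
  ((a + b * alpha Φ) * z + c) * th Φ z ^ 2 + b * (deriv (th Φ) z * th Φ z)

theorem combNum_off (a b c : ℂ) {z : ℂ} (hz : z ∉ L.lattice) :
    combNum Φ a b c z = th Φ z ^ 2 * comb Φ a b c z := by
  have h0 := th_ne_zero Φ hz
  rw [combNum, comb, zeta₀, zt]
  field_simp
  ring

theorem differentiable_combNum (a b c : ℂ) : Differentiable ℂ (combNum Φ a b c) := fun z => by
  have h1 : DifferentiableAt ℂ (th Φ) z := differentiable_th Φ z
  have h2 : DifferentiableAt ℂ (deriv (th Φ)) z := differentiable_deriv (differentiable_th Φ) z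
  unfold combNum
  fun_prop

theorem exists_combPeriod_ne_zero {a b : ℂ} (hab : a ≠ 0 ∨ b ≠ 0) :
    ∃ x ∈ L.lattice, combPeriod Φ a b x ≠ 0 := by
  by_contra h
  push Not at h
  have h1 := h _ Φ.ω_mem
  have h2 := h _ Φ.τω_mem
  simp only [combPeriod, eta] at h1 h2
  rw [div_self Φ.hω] at h1
  rw [mul_div_cancel_right₀ _ Φ.hω] at h2
  simp [Φ.hτ.ne'] at h1 h2
  have hs : shiftC Φ ≠ 0 := div_ne_zero (neg_ne_zero.2 (mul_ne_zero (mul_ne_zero two_ne_zero
    (ofReal_ne_zero.2 Real.pi_ne_zero)) I_ne_zero)) Φ.hω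
  have hb : b = 0 := (mul_eq_zero.1 (by linear_combination h2 - Φ.τ * h1 :
    b * shiftC Φ = 0)).resolve_right hs
  have ha : a = 0 := (mul_eq_zero.1 (by rw [hb] at h1; linear_combination h1 :
    a * Φ.ω = 0)).resolve_right Φ.hω
  exact hab.elim (fun e => e ha) fun e => e hb

theorem norm_add_le_exp {x y : ℂ} {A B : ℝ} (hA : 0 ≤ A) (hB : 0 ≤ B) (hx : ‖x‖ ≤ Real.exp A)
    (hy : ‖y‖ ≤ Real.exp B) : ‖x + y‖ ≤ Real.exp (A + B + 1) := by
  refine (norm_add_le_of_le hx hy).trans ?_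
  have h2 : (2 : ℝ) ≤ Real.exp 1 := le_trans (by norm_num) (Real.add_one_le_exp 1)
  calc Real.exp A + Real.exp B ≤ Real.exp (A + B) + Real.exp (A + B) :=
        add_le_add (Real.exp_le_exp.2 (by linarith)) (Real.exp_le_exp.2 (by linarith))
    _ = Real.exp (A + B) * 2 := by ring
    _ ≤ _ := by rw [Real.exp_add (A + B) 1]; gcongr

theorem exists_comb_bound (a b c : ℂ) : ∃ C : ℝ, ∀ z,
    ‖th Φ z ^ 2‖ ≤ Real.exp (C * (‖z‖ + 1) ^ 2) ∧
    ‖combNum Φ a b c z‖ ≤ Real.exp (C * (‖z‖ + 1) ^ 2) ∧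
    ‖thSq Φ z‖ ≤ Real.exp (C * (‖z‖ + 1) ^ 2) := by
  obtain ⟨C, hC, hb⟩ := exists_bound Φ
  refine ⟨4 * C + ‖a + b * alpha Φ‖ + ‖c‖ + ‖b‖ + 1, fun z => ?_⟩
  obtain ⟨h1, h2, h3⟩ := hb z
  set Q := (‖z‖ + 1) ^ 2
  have hQ : 1 ≤ Q := one_le_pow₀ (le_add_of_nonneg_left (norm_nonneg z))
  have hC0 : 0 ≤ C * Q := mul_nonneg hC (by positivity)
  have ha0 : 0 ≤ ‖a + b * alpha Φ‖ * Q := by positivity
  have hc0 : 0 ≤ ‖c‖ * Q := by positivity
  have hb0 : 0 ≤ ‖b‖ * Q := by positivity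
  have hth : ‖th Φ z ^ 2‖ ≤ Real.exp (C * Q + C * Q) := by
    rw [sq]; exact norm_mul_le_exp h1 h1
  have hlin : ‖(a + b * alpha Φ) * z + c‖ ≤ Real.exp (‖a + b * alpha Φ‖ * Q + ‖c‖ * Q) := by
    refine le_trans ?_ ((le_add_of_nonneg_right zero_le_one).trans (Real.add_one_le_exp _))
    refine norm_add_le_of_le ?_ (le_mul_of_one_le_right (norm_nonneg c) hQ)
    rw [norm_mul]
    exact mul_le_mul_of_nonneg_left ((le_add_of_nonneg_right zero_le_one).trans
      (le_self_pow₀ (le_add_of_nonneg_left (norm_nonneg z)) two_ne_zero)) (norm_nonneg _)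
  have hbe : ‖b‖ ≤ Real.exp (‖b‖ * Q) := (le_mul_of_one_le_right (norm_nonneg b) hQ).trans
    ((le_add_of_nonneg_right zero_le_one).trans (Real.add_one_le_exp _))
  refine ⟨hth.trans (Real.exp_le_exp.2 ?_), ?_, h3.trans (Real.exp_le_exp.2 ?_)⟩
  · linarith [mul_nonneg hC (zero_le_one.trans hQ)]
  · refine (norm_add_le_exp (add_nonneg (add_nonneg ha0 hc0) (add_nonneg hC0 hC0))
      (add_nonneg hb0 (add_nonneg hC0 hC0)) (norm_mul_le_exp hlin hth)
      (norm_mul_le_exp hbe (norm_mul_le_exp h2 h1))).trans (Real.exp_le_exp.2 ?_)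
    linarith
  · linarith

/-- The theorem for a period whose half is not a period. -/
theorem transcendental_combPeriod (h₂ : IsAlgebraic ℚ L.g₂) (h₃ : IsAlgebraic ℚ L.g₃) {a b ω : ℂ}
    (hω : ω ∈ L.lattice) (hω2 : ω / 2 ∉ L.lattice) (ha : IsAlgebraic ℚ a) (hb : IsAlgebraic ℚ b)
    (hab : a ≠ 0 ∨ b ≠ 0) : Transcendental ℚ (combPeriod Φ a b ω) := by
  classical
  intro hP
  have hω0 : ω ≠ 0 := fun h => hω2 (by simp [h])
  have he := isAlgebraic_weierstrassP_half h₂ h₃ hω hω2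
  set T : Set ℂ := {a, b, combPeriod Φ a b ω, L.g₂, ℘[L] (ω / 2)}
  haveI : FiniteDimensional ℚ (IntermediateField.adjoin ℚ T) :=
    IntermediateField.finiteDimensional_adjoin fun x hx => by
      rcases hx with rfl | rfl | rfl | rfl | rfl
      exacts [ha.isIntegral, hb.isIntegral, hP.isIntegral, h₂.isIntegral, he.isIntegral]
  haveI : NumberField (IntermediateField.adjoin ℚ T) := { }
  set K := IntermediateField.adjoin ℚ T
  have hmem : ∀ x ∈ T, ∃ r : K, (r : ℂ) = x := fun x hx =>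
    ⟨⟨x, IntermediateField.subset_adjoin ℚ T hx⟩, rfl⟩
  obtain ⟨ka, hka⟩ := hmem a (by simp [T])
  obtain ⟨kb, hkb⟩ := hmem b (by simp [T])
  obtain ⟨kP, hkP⟩ := hmem (combPeriod Φ a b ω) (by simp [T])
  obtain ⟨kg, hkg⟩ := hmem L.g₂ (by simp [T])
  obtain ⟨ke, hke⟩ := hmem (℘[L] (ω / 2)) (by simp [T])
  set c : ℂ := -(a * (ω / 2) + b * zeta₀ Φ (ω / 2)) with hc
  set F : ℂ → ℂ := comb Φ a b c with hF
  obtain ⟨C, hbound⟩ := exists_comb_bound Φ a b c
  set n := 4 * 2 * finrank ℚ K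
  let pts : ℕ → ℂ := fun k => ω / 2 + k * ω
  have hinj : Function.Injective pts := fun p q hpq => by
    simpa [pts, hω0] using hpq
  have hkω : ∀ k : ℕ, (k : ℂ) * ω ∈ L.lattice := fun k => by
    simpa [nsmul_eq_mul] using nsmul_mem hω k
  have hFval : ∀ k : ℕ, F (pts k) = k * combPeriod Φ a b ω := fun k => by
    rw [hF, comb_add Φ a b c hω2 (hkω k), combPeriod_nsmul, comb, hc]; ring
  have hcard := card_le_of_values_mem (K := K) K.val.toRingHom (σ := Fin 3)
    (f := ![F, ℘[L], ℘'[L]]) (U := (L.lattice : Set ℂ)ᶜ) L.isClosed_lattice.isOpen_compl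
    ![MvPolynomial.C ka - MvPolynomial.C kb * MvPolynomial.X 1, MvPolynomial.X 2,
      MvPolynomial.C 6 * MvPolynomial.X 1 ^ 2 - MvPolynomial.C (kg / 2)]
    (fun i z hz => by
      fin_cases i
      · have h : HasDerivAt F (a - b * ℘[L] z) z :=
          ((((hasDerivAt_id z).const_mul a).add ((hasDerivAt_zeta₀ Φ hz).const_mul b)).add_const
            c).congr_deriv (by ring)
        simpa [hka, hkb] using h
      · have := (Mazur.Weier.analyticAt_P L hz).differentiableAt.hasDerivAt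
        rw [L.deriv_weierstrassP] at this
        simpa using this
      · have := (Mazur.Weier.analyticAt_P' L hz).differentiableAt.hasDerivAt
        rw [Mazur.Weier.deriv_derivWeierstrassP L hz] at this
        simpa [hkg, map_ofNat] using this)
    ((Finset.range (n + 1)).image pts)
    (fun w hw => by
      obtain ⟨k, -, rfl⟩ := Finset.mem_image.1 hw
      exact fun hm => hω2 ((values_add_mul hω k).2.2.1 hm))
    (fun w hw i => by
      obtain ⟨k, -, rfl⟩ := Finset.mem_image.1 hw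
      fin_cases i
      · exact ⟨k * kP, by simp [hFval, hkP]⟩
      · exact ⟨ke, by simp [pts, hke, (values_add_mul hω k).1]⟩
      · exact ⟨0, by simp [pts, (values_add_mul hω k).2.1, derivWeierstrassP_half hω]⟩)
    0 1 (θ := fun z => th Φ z ^ 2) ((differentiable_th Φ).pow 2)
    (fun h => by
      obtain ⟨z, -, hz⟩ := exists_th_ne_zero Φ
      exact pow_ne_zero 2 hz (congrFun h z))
    (g₀ := combNum Φ a b c) (g₁ := thSq Φ) (differentiable_combNum Φ a b c)
    (differentiable_thSq Φ) (fun z hz => by simpa [hF] using combNum_off Φ a b c hz)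
    (fun z hz => by simpa using thSq_off Φ hz) (ρ := 2) two_pos (C := C)
    (fun z => (hbound z).1) (fun z => (hbound z).2.1) (fun z => (hbound z).2.2)
    (fun q r hr => by
      refine eq_zero_of_grid r (infinite_image_weierstrassP L
        (Mazur.Weier.countable_lattice L) le_rfl) ?_
      rintro _ ⟨z, hz, rfl⟩
      obtain ⟨x, hx, hQ⟩ := exists_combPeriod_ne_zero Φ hab
      refine ⟨Set.range fun k : ℕ => F z + k * combPeriod Φ a b x,
        Set.infinite_range_of_injective fun p q hpq => by simpa [hQ] using hpq, ?_⟩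
      rintro _ ⟨k, rfl⟩
      have hkx : (k : ℂ) * x ∈ L.lattice := by simpa [nsmul_eq_mul] using nsmul_mem hx k
      have h := hr (z + k * x) (add_notMem hz hkx)
      simpa [hF, comb_add Φ a b c hz hkx, combPeriod_nsmul,
        (values_add_mul (v := z) hx k).1] using h)
  rw [Finset.card_image_of_injective _ hinj, Finset.card_range] at hcard
  omega

/-- **Schneider**: `a ω + b η` is transcendental. -/
theorem transcendental_second_kind (h₂ : IsAlgebraic ℚ L.g₂) (h₃ : IsAlgebraic ℚ L.g₃)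
    {ζ : ℂ → ℂ} (hζ : ∀ z ∉ L.lattice, HasDerivAt ζ (-℘[L] z) z) {ω η : ℂ} (hω : ω ∈ L.lattice)
    (hω0 : ω ≠ 0) (hη : ∀ z ∉ L.lattice, ζ (z + ω) = ζ z + η) {a b : ℂ} (ha : IsAlgebraic ℚ a)
    (hb : IsAlgebraic ℚ b) (hab : a ≠ 0 ∨ b ≠ 0) : Transcendental ℚ (a * ω + b * η) := by
  obtain ⟨Φ, -⟩ := exists_frame L
  obtain ⟨v, hv, -, hv2, s, rfl⟩ := exists_primitive_period hω hω0
  intro hal
  refine transcendental_combPeriod Φ h₂ h₃ hv hv2 ha hb hab ?_
  have h : a * (2 ^ s * v) + b * η = 2 ^ s * combPeriod Φ a b v := by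
    have := combPeriod_nsmul Φ a b (2 ^ s) v
    push_cast at this
    rw [eta_eq_of_primitive Φ hζ hω hη, ← this, combPeriod]
  have h2 : IsAlgebraic ℚ (((2 : ℂ) ^ s)⁻¹) := ((isAlgebraic_natCast 2).pow s).inv
  simpa [h] using h2.mul hal

theorem transcendental_quasiPeriod (h₂ : IsAlgebraic ℚ L.g₂) (h₃ : IsAlgebraic ℚ L.g₃)
    {ζ : ℂ → ℂ} (hζ : ∀ z ∉ L.lattice, HasDerivAt ζ (-℘[L] z) z) {ω η : ℂ} (hω : ω ∈ L.lattice)
    (hω0 : ω ≠ 0) (hη : ∀ z ∉ L.lattice, ζ (z + ω) = ζ z + η) : Transcendental ℚ η := by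
  simpa using transcendental_second_kind h₂ h₃ hζ hω hω0 hη (a := 0) (b := 1)
    isAlgebraic_zero isAlgebraic_one (Or.inr one_ne_zero)

theorem transcendental_quasiPeriod_div (h₂ : IsAlgebraic ℚ L.g₂) (h₃ : IsAlgebraic ℚ L.g₃)
    {ζ : ℂ → ℂ} (hζ : ∀ z ∉ L.lattice, HasDerivAt ζ (-℘[L] z) z) {ω η : ℂ} (hω : ω ∈ L.lattice)
    (hω0 : ω ≠ 0) (hη : ∀ z ∉ L.lattice, ζ (z + ω) = ζ z + η) : Transcendental ℚ (η / ω) := by
  intro h
  refine transcendental_second_kind h₂ h₃ hζ hω hω0 hη (a := -(η / ω)) (b := 1) h.neg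
    isAlgebraic_one (Or.inr one_ne_zero) ?_
  rw [show -(η / ω) * ω + 1 * η = 0 by field_simp; ring]
  exact isAlgebraic_zero

end FA.EllipticSecondKind

end
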