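import Fermat.Agent.Chudnovsky.Main

/-!
# Quasi-periods

A primitive `ζ` of `-℘` increases by `η (l)` along a period `l`, and `η` is given by the constants
of the theta function: this is Legendre's relation.
-/

set_option autoImplicit false

noncomputable section

open Complex
open scoped Real PeriodPair

namespace FA.EllipticSecondKind

open FA.Chudnovsky (Frame zt alpha shiftC zt_add_period zt_add_quasi hasDerivAt_zt exists_frame)

variable {L : PeriodPair} (Φ : Frame L)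

theorem add_notMem {z x : ℂ} (hz : z ∉ L.lattice) (hx : x ∈ L.lattice) : z + x ∉ L.lattice :=
  fun h => hz (by simpa using sub_mem h hx)

/-- The primitive of `-℘` built from the theta function. -/
def zeta₀ (z : ℂ) : ℂ := zt Φ z + alpha Φ * z

/-- The quasi-periods of `zeta₀`, extended linearly. -/
def eta (x : ℂ) : ℂ := alpha Φ * x + shiftC Φ * (((x / Φ.ω).im / Φ.τ.im : ℝ) : ℂ)

theorem eta_nsmul (k : ℕ) (x : ℂ) : eta Φ (k * x) = k * eta Φ x := by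
  simp only [eta, mul_div_assoc, Complex.mul_im, Complex.natCast_re, Complex.natCast_im, zero_mul,
    add_zero, Complex.ofReal_mul, Complex.ofReal_natCast]
  ring

theorem hasDerivAt_zeta₀ {z : ℂ} (hz : z ∉ L.lattice) : HasDerivAt (zeta₀ Φ) (-℘[L] z) z := by
  refine ((hasDerivAt_zt Φ hz).add ((hasDerivAt_id z).const_mul (alpha Φ))).congr_deriv ?_
  ring

theorem zt_add_int {z : ℂ} (hz : z ∉ L.lattice) (n : ℤ) :
    zt Φ (z + n * (Φ.τ * Φ.ω)) = zt Φ z + n * shiftC Φ := by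
  have hmem : ∀ k : ℤ, (k : ℂ) * (Φ.τ * Φ.ω) ∈ L.lattice := fun k => by
    simpa [zsmul_eq_mul] using zsmul_mem Φ.τω_mem k
  induction n using Int.induction_on with
  | zero => simp
  | succ k ih =>
    rw [show z + (((k : ℤ) + 1 : ℤ) : ℂ) * (Φ.τ * Φ.ω) =
      z + ((k : ℤ) : ℂ) * (Φ.τ * Φ.ω) + Φ.τ * Φ.ω by push_cast; ring,
      zt_add_quasi Φ (add_notMem hz (hmem k)), ih]
    push_cast; ring
  | pred k ih =>
    have h := zt_add_quasi Φ (add_notMem hz (hmem (-(k : ℤ) - 1)))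
    rw [show z + ((-(k : ℤ) - 1 : ℤ) : ℂ) * (Φ.τ * Φ.ω) + Φ.τ * Φ.ω =
      z + ((-(k : ℤ) : ℤ) : ℂ) * (Φ.τ * Φ.ω) by push_cast; ring, ih] at h
    push_cast at h ⊢
    linear_combination -h

theorem zeta₀_add {z x : ℂ} (hz : z ∉ L.lattice) (hx : x ∈ L.lattice) :
    zeta₀ Φ (z + x) = zeta₀ Φ z + eta Φ x := by
  obtain ⟨m, n, rfl⟩ := (Φ.mem x).1 hx
  have h1 : zt Φ (z + ((m : ℂ) + n * Φ.τ) * Φ.ω) = zt Φ z + n * shiftC Φ := by
    rw [show z + ((m : ℂ) + n * Φ.τ) * Φ.ω = z + n * (Φ.τ * Φ.ω) + m * Φ.ω by ring,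
      Function.Periodic.int_mul (zt_add_period Φ) m, zt_add_int Φ hz]
  rw [zeta₀, h1, zeta₀, eta, mul_div_cancel_right₀ _ Φ.hω]
  simp [Φ.hτ.ne', mul_comm (n : ℂ)]
  ring

theorem eta_eq_of_primitive {ζ : ℂ → ℂ} (hζ : ∀ z ∉ L.lattice, HasDerivAt ζ (-℘[L] z) z)
    {x η : ℂ} (hx : x ∈ L.lattice) (hη : ∀ z ∉ L.lattice, ζ (z + x) = ζ z + η) :
    η = eta Φ x := by
  have hv : ∀ z ∉ L.lattice, HasDerivAt (fun z => ζ z - zeta₀ Φ z) 0 z := fun z hz =>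
    ((hζ z hz).sub (hasDerivAt_zeta₀ Φ hz)).congr_deriv (sub_self _)
  have h0 := Φ.half_notMem
  have hc : ζ (Φ.ω / 2 + x) - zeta₀ Φ (Φ.ω / 2 + x) = ζ (Φ.ω / 2) - zeta₀ Φ (Φ.ω / 2) :=
    L.isClosed_lattice.isOpen_compl.is_const_of_deriv_eq_zero
      (Mazur.Weier.preconnected_compl (Mazur.Weier.countable_lattice L))
      (fun z hz => (hv z hz).differentiableAt.differentiableWithinAt)
      (fun z hz => (hv z hz).deriv) (add_notMem h0 hx) h0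
  rw [hη _ h0, zeta₀_add Φ h0 hx] at hc
  linear_combination hc

theorem exists_primitive (L : PeriodPair) :
    ∃ ζ : ℂ → ℂ, (∀ z ∉ L.lattice, HasDerivAt ζ (-℘[L] z) z) ∧
      ∀ x ∈ L.lattice, ∃ η : ℂ, ∀ z ∉ L.lattice, ζ (z + x) = ζ z + η := by
  obtain ⟨Φ, -⟩ := exists_frame L
  exact ⟨zeta₀ Φ, fun z hz => hasDerivAt_zeta₀ Φ hz,
    fun x hx => ⟨eta Φ x, fun z hz => zeta₀_add Φ hz hx⟩⟩

theorem legendre_frame (hω : Φ.ω = L.ω₁) :
    ∃ n : ℤ, (n = 1 ∨ n = -1) ∧ (n : ℝ) * Φ.τ.im = (L.ω₂ / L.ω₁).im ∧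
      eta Φ L.ω₁ * L.ω₂ - eta Φ L.ω₂ * L.ω₁ = n * (2 * π * I) := by
  have h0 : L.ω₁ ≠ 0 := hω ▸ Φ.hω
  obtain ⟨m, n, hmn⟩ := (Φ.mem _).1 L.ω₂_mem_lattice
  obtain ⟨a, b, hab⟩ := PeriodPair.mem_lattice.1 Φ.τω_mem
  rw [hω] at hmn hab
  have hq : L.ω₂ / L.ω₁ = m + n * Φ.τ := by rw [← hmn, mul_div_cancel_right₀ _ h0]
  have him : (L.ω₂ / L.ω₁).im = n * Φ.τ.im := by simp [hq]
  have hτ : Φ.τ = a + b * (m + n * Φ.τ) := by
    rw [← hq]
    field_simp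
    linear_combination -hab
  have hbn : (b : ℝ) * n = 1 := by
    have h := congrArg Complex.im hτ
    simp only [Complex.add_im, Complex.mul_im, Complex.intCast_im, Complex.intCast_re, zero_mul,
      add_zero, zero_add] at h
    exact mul_right_cancel₀ Φ.hτ.ne' (by linear_combination -h)
  refine ⟨n, Int.eq_one_or_neg_one_of_mul_eq_one (v := b) (by rw [mul_comm]; exact_mod_cast hbn),
    him.symm, ?_⟩
  rw [eta, eta, hω, div_self h0, hq]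
  simp [Φ.hτ.ne', shiftC, hω]
  field_simp
  ring

/-- **Legendre's relation.** -/
theorem legendre_relation {ζ : ℂ → ℂ} (hζ : ∀ z ∉ L.lattice, HasDerivAt ζ (-℘[L] z) z)
    {η₁ η₂ : ℂ} (h₁ : ∀ z ∉ L.lattice, ζ (z + L.ω₁) = ζ z + η₁)
    (h₂ : ∀ z ∉ L.lattice, ζ (z + L.ω₂) = ζ z + η₂) :
    (0 < (L.ω₂ / L.ω₁).im → η₁ * L.ω₂ - η₂ * L.ω₁ = 2 * π * I) ∧
      ((L.ω₂ / L.ω₁).im < 0 → η₁ * L.ω₂ - η₂ * L.ω₁ = -(2 * π * I)) := by
  obtain ⟨Φ, hΦ⟩ := exists_frame L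
  obtain ⟨n, hn, him, hrel⟩ := legendre_frame Φ hΦ
  rw [eta_eq_of_primitive Φ hζ L.ω₁_mem_lattice h₁, eta_eq_of_primitive Φ hζ L.ω₂_mem_lattice h₂,
    hrel, ← him]
  have := Φ.hτ
  rcases hn with rfl | rfl <;> push_cast <;>
    refine ⟨fun h => ?_, fun h => ?_⟩ <;> first | (exfalso; linarith) | ring

end FA.EllipticSecondKind

end
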